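import Fermat.Agent.S55.CycLayer9.LES
import Fermat.Agent.S55.GlobalInv91.Abstract

/-!
# S55 / 35-CYC (helper9): the cyclic layer of the global invariant, abstract form

`G` finite cyclic (generated by `g`), `0 → X₁ → X₂ → X₃ → 0` a short exact sequence of
`G`-modules (think `X₁ = L'ˣ`, `X₂ = J_{L'}`, `X₃ = C_{L'}`).

* `isZero_H3_of_isZero_H1`: periodicity, `H¹ = 0 ⇒ H³ = 0`.
* `cyclic_layer`: Hilbert 90 for `X₁`, `|H²(X₃)| ∣ n`, an additive "sum of local invariants"
  `invJ : H²(X₂) → T` killing the image of `H²(X₁)` (reciprocity) and taking a value of exact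
  order `n` ⟹ `invJ` descends to an injective `invC : H²(X₃) → T` with `invC ∘ π = invJ`,
  `H²(X₃)` is cyclic of order `n` generated by `π c₀`, the image of `invC` is the cyclic group
  generated by `invJ c₀`, and `ker invJ = im(H²(X₁) → H²(X₂))` (Hasse's realisation statement).
* `eq_top_of_not_le_of_index_eq_prime`, `exists_eq_top_of_iSup_eq_top`: in a cyclic `p`-group a
  subgroup not contained in the subgroup of index `p` is everything; hence if a family of
  (decomposition) subgroups generates the group, one of them is the whole group.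
-/

set_option autoImplicit false

namespace Fermat.Agent.S55.CycLayer9

open groupCohomology CategoryTheory Limits

universe u

section Periodicity

variable {k G : Type u} [CommRing k] [CommGroup G] [Fintype G]

/-- Periodicity for a finite cyclic group: `H¹(G, A) = 0` implies `H³(G, A) = 0`. -/
theorem isZero_H3_of_isZero_H1 (A : Rep.{u, u, u} k G) (g : G)
    (hg : ∀ x, x ∈ Subgroup.zpowers g) (h1 : IsZero (groupCohomology A 1)) :
    IsZero (groupCohomology A 3) :=
  h1.of_iso ((Rep.FiniteCyclicGroup.groupCohomologyIsoOdd A g hg 3 (by decide)) ≪≫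
    (Rep.FiniteCyclicGroup.groupCohomologyIsoOdd A g hg 1 (by decide)).symm)

/-- Periodicity for a finite cyclic group: `H¹(G, A) = 0` implies `Hⁱ(G, A) = 0`, `i` odd. -/
theorem isZero_odd_of_isZero_H1 (A : Rep.{u, u, u} k G) (g : G)
    (hg : ∀ x, x ∈ Subgroup.zpowers g) (h1 : IsZero (groupCohomology A 1)) (i : ℕ) (hi : Odd i) :
    IsZero (groupCohomology A i) :=
  h1.of_iso ((Rep.FiniteCyclicGroup.groupCohomologyIsoOdd A g hg i hi) ≪≫
    (Rep.FiniteCyclicGroup.groupCohomologyIsoOdd A g hg 1 (by decide)).symm)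

/-- Periodicity for a finite cyclic group: `H²(G, A) = 0` implies `Hⁱ(G, A) = 0`, `i > 0` even. -/
theorem isZero_even_of_isZero_H2 (A : Rep.{u, u, u} k G) (g : G)
    (hg : ∀ x, x ∈ Subgroup.zpowers g) (h2 : IsZero (groupCohomology A 2)) (i : ℕ) [NeZero i]
    (hi : Even i) : IsZero (groupCohomology A i) :=
  h2.of_iso ((Rep.FiniteCyclicGroup.groupCohomologyIsoEven A g hg i hi) ≪≫
    (Rep.FiniteCyclicGroup.groupCohomologyIsoEven A g hg 2 (by decide)).symm)

end Periodicity

section Descent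

variable {HJ HC T : Type*} [AddCommGroup HJ] [AddCommGroup HC] [AddCommGroup T]

/-- Pure additive-group form of the cyclic layer: `π : HJ → HC` onto, `invC ∘ π = invJ`,
`|HC| ∣ n`, `invJ c₀` of exact order `n`. -/
theorem descent_core (π : HJ →+ HC) (invJ : HJ →+ T) (invC : HC →+ T)
    (hcomp : ∀ c, invC (π c) = invJ c) {n : ℕ} [Finite HC]
    (hcard : Nat.card HC ∣ n) (c₀ : HJ) (hc₀ : addOrderOf (invJ c₀) = n) :
    Function.Injective invC ∧ Nat.card HC = n ∧ addOrderOf (π c₀) = n ∧
      (∀ x : HC, ∃ j : ℤ, x = j • π c₀) ∧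
      invC.range = AddSubgroup.zmultiples (invJ c₀) := by
  set γ : HC := π c₀ with hγ
  have hγinv : invC γ = invJ c₀ := hcomp c₀
  have h1 : n ∣ addOrderOf γ := by
    rw [← hc₀, ← hγinv]
    exact addOrderOf_map_dvd invC γ
  have h2 : addOrderOf γ ∣ Nat.card HC := addOrderOf_dvd_natCard γ
  have hordγ : addOrderOf γ = n := Nat.dvd_antisymm (h2.trans hcard) h1
  have hcardn : Nat.card HC = n := Nat.dvd_antisymm hcard (h1.trans h2)
  have htop : AddSubgroup.zmultiples γ = ⊤ := by
    apply AddSubgroup.eq_top_of_card_eq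
    rw [Nat.card_zmultiples, hordγ, hcardn]
  have hgen : ∀ x : HC, ∃ j : ℤ, x = j • γ := by
    intro x
    have hx : x ∈ AddSubgroup.zmultiples γ := htop ▸ AddSubgroup.mem_top x
    obtain ⟨j, hj⟩ := AddSubgroup.mem_zmultiples_iff.1 hx
    exact ⟨j, hj.symm⟩
  refine ⟨?_, hcardn, hordγ, hgen, ?_⟩
  · rw [injective_iff_map_eq_zero]
    intro x hx
    obtain ⟨j, rfl⟩ := hgen x
    rw [map_zsmul, hγinv] at hx
    have hdvd : (n : ℤ) ∣ j := by
      rw [← hc₀]
      exact addOrderOf_dvd_iff_zsmul_eq_zero.2 hx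
    rw [← hordγ] at hdvd
    exact addOrderOf_dvd_iff_zsmul_eq_zero.1 hdvd
  · ext t
    constructor
    · rintro ⟨x, rfl⟩
      obtain ⟨j, rfl⟩ := hgen x
      rw [map_zsmul, hγinv]
      exact AddSubgroup.zsmul_mem _ (AddSubgroup.mem_zmultiples _) j
    · intro ht
      obtain ⟨j, rfl⟩ := AddSubgroup.mem_zmultiples_iff.1 ht
      exact ⟨j • γ, by rw [map_zsmul, hγinv]⟩

end Descent

section CyclicLayer

variable {k G : Type u} [CommRing k] [CommGroup G] [Fintype G]
  {X : ShortComplex (Rep.{u, u, u} k G)} (hX : X.ShortExact)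

include hX

/-- **The cyclic layer (35-CYC), abstract form.** -/
theorem cyclic_layer (g : G) (hg : ∀ x, x ∈ Subgroup.zpowers g)
    (hH90 : IsZero (groupCohomology X.X₁ 1))
    {T : Type*} [AddCommGroup T] (invJ : H2 X.X₂ →+ T)
    (hrec : ∀ e : H2 X.X₁, invJ ((i₂ X).hom e) = 0)
    {n : ℕ} [Finite (H2 X.X₃)] (hcard : Nat.card (H2 X.X₃) ∣ n)
    (c₀ : H2 X.X₂) (hc₀ : addOrderOf (invJ c₀) = n) :
    ∃ invC : H2 X.X₃ →+ T,
      (∀ c, invC ((π₂ X).hom c) = invJ c) ∧ Function.Injective invC ∧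
      Nat.card (H2 X.X₃) = n ∧
      (∀ x : H2 X.X₃, ∃ j : ℤ, x = j • (π₂ X).hom c₀) ∧
      invC.range = AddSubgroup.zmultiples (invJ c₀) ∧
      (∀ c : H2 X.X₂, invJ c = 0 ↔ ∃ e, (i₂ X).hom e = c) := by
  have h3 : IsZero (groupCohomology X.X₁ 3) := isZero_H3_of_isZero_H1 X.X₁ g hg hH90
  have hsurj : Function.Surjective (π₂ X).hom := π₂_surjective_of_isZero_H3 hX h3
  obtain ⟨invC, hinvC, -⟩ := GlobalInv91.exists_descInv
    (i₂ X).hom.toAddMonoidHom (π₂ X).hom.toAddMonoidHom invJ
    (fun c hc => exists_i₂_eq_of_π₂_eq_zero hX c hc) hsurj hrec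
  obtain ⟨hinj, hcardn, -, hgen, hrange⟩ :=
    descent_core (π₂ X).hom.toAddMonoidHom invJ invC hinvC hcard c₀ hc₀
  refine ⟨invC, hinvC, hinj, hcardn, hgen, hrange, ?_⟩
  intro c
  constructor
  · intro hc
    have : (π₂ X).hom c = 0 := by
      apply hinj
      rw [map_zero]
      exact (hinvC c).trans hc
    exact exists_i₂_eq_of_π₂_eq_zero hX c this
  · rintro ⟨e, rfl⟩
    exact hrec e

omit [Fintype G] hX in
/-- Uniqueness of the descended invariant (only needs `π₂` onto). -/
theorem invC_unique (hsurj : Function.Surjective (π₂ X).hom) {T : Type*} [AddCommGroup T]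
    (invJ : H2 X.X₂ →+ T) (f f' : H2 X.X₃ →+ T)
    (hf : ∀ c, f ((π₂ X).hom c) = invJ c) (hf' : ∀ c, f' ((π₂ X).hom c) = invJ c) : f = f' := by
  ext x
  obtain ⟨c, rfl⟩ := hsurj x
  rw [hf, hf']

end CyclicLayer

section Chain

variable {G : Type*} [Group G] [IsCyclic G] [Finite G] {p : ℕ} [hp : Fact p.Prime]

/-- In a finite cyclic `p`-group, a subgroup which is not contained in a subgroup of index `p`
is the whole group. -/
theorem eq_top_of_not_le_of_index_eq_prime (hG : IsPGroup p G) (M : Subgroup G)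
    (hM : M.index = p) (D : Subgroup G) (hD : ¬ D ≤ M) : D = ⊤ := by
  classical
  obtain ⟨g, hg⟩ := IsCyclic.exists_generator (α := G)
  obtain ⟨d, hdD, hdM⟩ := Set.not_subset.1 hD
  obtain ⟨a, rfl⟩ : ∃ a : ℕ, g ^ a = d := by
    have := mem_powers_iff_mem_zpowers.2 (hg d)
    exact Submonoid.mem_powers_iff _ _ |>.1 this
  have : M.Normal := by
    let _ := IsCyclic.commGroup (α := G)
    infer_instance
  -- `x ^ p ∈ M` for all `x`
  have hpow : ∀ x : G, x ^ p ∈ M := by
    intro x
    rw [← QuotientGroup.eq_one_iff, QuotientGroup.mk_pow]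
    have hc : Nat.card (G ⧸ M) = p := by rw [← Subgroup.index_eq_card, hM]
    rw [← hc]
    exact pow_card_eq_one'
  have hnd : ¬ p ∣ a := by
    rintro ⟨b, rfl⟩
    apply hdM
    rw [mul_comm, pow_mul]
    exact hpow _
  obtain ⟨j, hj⟩ := IsPGroup.iff_card.1 hG
  have hordg : orderOf g = p ^ j := (orderOf_eq_card_of_forall_mem_zpowers hg).trans hj
  have hcop : (orderOf g).Coprime a := by
    rw [hordg]
    exact Nat.Coprime.pow_left j ((Nat.Prime.coprime_iff_not_dvd hp.out).2 hnd)
  have hordd : orderOf (g ^ a) = Nat.card G := by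
    rw [hcop.orderOf_pow, orderOf_eq_card_of_forall_mem_zpowers hg]
  have htop : Subgroup.zpowers (g ^ a) = ⊤ := by
    apply Subgroup.eq_top_of_card_eq
    rw [Nat.card_zpowers, hordd]
  rw [eq_top_iff, ← htop]
  exact Subgroup.zpowers_le.2 hdD

/-- In a nontrivial finite cyclic `p`-group, if a family of subgroups generates the group then
one of them is the whole group. -/
theorem exists_eq_top_of_iSup_eq_top (hG : IsPGroup p G) [Nontrivial G] {ι : Sort*}
    (D : ι → Subgroup G) (h : ⨆ v, D v = ⊤) : ∃ v, D v = ⊤ := by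
  classical
  -- a subgroup of index `p`: the image of the `p`-th power map
  let _ := IsCyclic.commGroup (α := G)
  set M : Subgroup G := (powMonoidHom p : G →* G).range with hMdef
  have hM : M.index = p := by
    rw [hMdef, IsCyclic.index_powMonoidHom_range]
    obtain ⟨j, hj⟩ := IsPGroup.iff_card.1 hG
    have hj0 : j ≠ 0 := by
      rintro rfl
      have : Nat.card G = 1 := by simpa using hj
      exact (Finite.one_lt_card (α := G)).ne' this
    rw [hj]
    exact Nat.gcd_eq_right (dvd_pow_self p hj0)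
  by_contra hne
  simp only [not_exists] at hne
  have hle : ∀ v, D v ≤ M := by
    intro v
    by_contra hv
    exact hne v (eq_top_of_not_le_of_index_eq_prime hG M hM (D v) hv)
  have : (⊤ : Subgroup G) ≤ M := h ▸ iSup_le hle
  have hidx : M.index = 1 := by rw [top_le_iff.1 this, Subgroup.index_top]
  rw [hM] at hidx
  exact hp.out.one_lt.ne' hidx

end Chain

end Fermat.Agent.S55.CycLayer9
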