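import Fermat.Agent.S55.CycLayer9.Main

/-!
# S55 / 35-GEN (helper9): the crossing step, abstract form

`Γ` a group (think `Gal(L·L'/K)`), `C : Rep k Γ`, `N₁ = Gal(L·L'/L)`, `N₂ = Gal(L·L'/L')` normal in
`Γ`; `L'/K` is the crossing (cyclic, cyclotomic) layer, `u'` a class of exact order `n` of
`H²(Γ ⧸ N₂, C^{N₂})`.  If `u'` dies on `N₁` (detected by an injective invariant on `H²(N₁, C)`,
i.e. `cyclic_layer` for `L·L'/L`) and `|H²(Γ ⧸ N₁, C^{N₁})| ∣ n`, then `H²(Γ ⧸ N₁, C^{N₁})` is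
cyclic of order `n`, generated by a class `γ` with the same inflation to `Γ` as `u'`.
-/

set_option autoImplicit false

namespace Fermat.Agent.S55.CycLayer9

open groupCohomology CategoryTheory Limits Rep
open Fermat.Agent.S55.GlobalInv91 (infl₂ res₂)

universe u

variable {k Γ : Type u} [CommRing k] [Group Γ] (C : Rep.{u, u, u} k Γ)
  (N₁ N₂ : Subgroup Γ) [N₁.Normal] [N₂.Normal]

/-- Inflation `H²(Γ ⧸ N, C^N) → H²(Γ, C)` is injective when `H¹(N, C) = 0`. -/
theorem infl₂_injective (N : Subgroup Γ) [N.Normal]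
    (h1 : IsZero (groupCohomology (res N.subtype C) 1)) :
    Function.Injective (infl₂ C N).hom :=
  (ModuleCat.mono_iff_injective _).1 (InfRes9.H2InfRes_mono C N h1)

/-- Exactness of inflation–restriction at `H²(Γ, C)` when `H¹(N, C) = 0`. -/
theorem exists_infl₂_eq_of_res₂_eq_zero (N : Subgroup Γ) [N.Normal]
    (h1 : IsZero (groupCohomology (res N.subtype C) 1)) (x : H2 C)
    (hx : (res₂ C N).hom x = 0) : ∃ y, (infl₂ C N).hom y = x := by
  have := InfRes9.H2InfRes_exact C N h1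
  rw [ShortComplex.moduleCat_exact_iff_ker_sub_range] at this
  exact this (LinearMap.mem_ker.2 hx)

/-- **Crossing step.** -/
theorem crossing_step
    (h1N₁ : IsZero (groupCohomology (res N₁.subtype C) 1))
    (h1N₂ : IsZero (groupCohomology (res N₂.subtype C) 1))
    (u' : H2 (C.quotientToInvariants N₂)) {n : ℕ} (hu' : addOrderOf u' = n)
    {T : Type*} [AddCommGroup T] (inv₁ : H2 (res N₁.subtype C) →+ T)
    (hinj : Function.Injective inv₁)
    (hzero : inv₁ ((res₂ C N₁).hom ((infl₂ C N₂).hom u')) = 0)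
    [Finite (H2 (C.quotientToInvariants N₁))]
    (hb : Nat.card (H2 (C.quotientToInvariants N₁)) ∣ n) :
    ∃ γ : H2 (C.quotientToInvariants N₁),
      (infl₂ C N₁).hom γ = (infl₂ C N₂).hom u' ∧ addOrderOf γ = n ∧
      ∀ x : H2 (C.quotientToInvariants N₁), ∃ j : ℤ, x = j • γ := by
  have hτord : addOrderOf ((infl₂ C N₂).hom u') = n := by
    rw [← hu']
    exact addOrderOf_injective (infl₂ C N₂).hom.toAddMonoidHom (infl₂_injective C N₂ h1N₂) u'
  have hres : (res₂ C N₁).hom ((infl₂ C N₂).hom u') = 0 := by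
    apply hinj
    rw [hzero, map_zero]
  exact GlobalInv91.exists_generator_of_res_eq_zero C N₁ h1N₁ _ hres hτord hb

/-- After the crossing step the two inflations have the same image in `H²(Γ, C)` as soon as
`u'` generates `H²(Γ ⧸ N₂, C^{N₂})`. -/
theorem range_infl₂_eq_of_crossing
    (u' : H2 (C.quotientToInvariants N₂))
    (hgen' : ∀ x : H2 (C.quotientToInvariants N₂), ∃ j : ℤ, x = j • u')
    (γ : H2 (C.quotientToInvariants N₁))
    (hγ : (infl₂ C N₁).hom γ = (infl₂ C N₂).hom u')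
    (hgen : ∀ x : H2 (C.quotientToInvariants N₁), ∃ j : ℤ, x = j • γ) :
    LinearMap.range (infl₂ C N₁).hom = LinearMap.range (infl₂ C N₂).hom := by
  ext t
  constructor
  · rintro ⟨x, rfl⟩
    obtain ⟨j, rfl⟩ := hgen x
    exact ⟨j • u', by rw [map_zsmul, map_zsmul, hγ]⟩
  · rintro ⟨x, rfl⟩
    obtain ⟨j, rfl⟩ := hgen' x
    exact ⟨j • γ, by rw [map_zsmul, map_zsmul, hγ]⟩

end Fermat.Agent.S55.CycLayer9
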