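import Mathlib

/-!
# S55 / 35-CYC (helper9): the long exact sequence around `H²`, elementwise

For a short exact sequence `0 → X₁ → X₂ → X₃ → 0` of representations of an arbitrary group `G`
we restate the pieces of Mathlib's long exact cohomology sequence that the class-field-theoretic
consumers use, as plain statements about elements of `H²`:

* `i₂ X : H²(G, X₁) ⟶ H²(G, X₂)`, `π₂ X : H²(G, X₂) ⟶ H²(G, X₃)`;
* `exists_i₂_eq_of_π₂_eq_zero`: exactness in the middle;
* `π₂_surjective_of_isZero_H3`: `H³(G, X₁) = 0` makes `π₂` onto;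
* `i₂_injective_of_isZero_H1`: `H¹(G, X₃) = 0` makes `i₂` injective.
-/

set_option autoImplicit false

namespace Fermat.Agent.S55.CycLayer9

open groupCohomology CategoryTheory Limits

universe u

variable {k G : Type u} [CommRing k] [Group G]

section maps

variable (X : ShortComplex (Rep.{u, u, u} k G))

/-- `H²(G, X₁) ⟶ H²(G, X₂)`. -/
noncomputable abbrev i₂ : H2 X.X₁ ⟶ H2 X.X₂ := groupCohomology.map (MonoidHom.id G) X.f 2

/-- `H²(G, X₂) ⟶ H²(G, X₃)`. -/
noncomputable abbrev π₂ : H2 X.X₂ ⟶ H2 X.X₃ := groupCohomology.map (MonoidHom.id G) X.g 2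

theorem π₂_i₂ (e : H2 X.X₁) : (π₂ X).hom ((i₂ X).hom e) = 0 := by
  have h : i₂ X ≫ π₂ X = 0 := (mapShortComplex₂ X 2).zero
  have := congrArg (fun φ => φ.hom e) h
  simpa using this

end maps

variable {X : ShortComplex (Rep.{u, u, u} k G)} (hX : X.ShortExact)

include hX

/-- Exactness of `H²(X₁) → H²(X₂) → H²(X₃)` in the middle. -/
theorem exists_i₂_eq_of_π₂_eq_zero (c : H2 X.X₂) (hc : (π₂ X).hom c = 0) :
    ∃ e : H2 X.X₁, (i₂ X).hom e = c := by
  have h := mapShortComplex₂_exact hX 2
  rw [ShortComplex.moduleCat_exact_iff_ker_sub_range] at h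
  exact h (LinearMap.mem_ker.2 hc)

/-- `H³(G, X₁) = 0` implies that `H²(G, X₂) → H²(G, X₃)` is onto. -/
theorem π₂_surjective_of_isZero_H3 (h3 : IsZero (groupCohomology X.X₁ 3)) :
    Function.Surjective (π₂ X).hom := by
  have h := mapShortComplex₃_exact hX (i := 2) (j := 3) rfl
  rw [ShortComplex.moduleCat_exact_iff_ker_sub_range] at h
  intro x
  have hx : (mapShortComplex₃ hX (i := 2) (j := 3) rfl).g.hom x = 0 :=
    @Subsingleton.elim _ (ModuleCat.subsingleton_of_isZero h3) _ _
  exact h (LinearMap.mem_ker.2 hx)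

/-- `H¹(G, X₃) = 0` implies that `H²(G, X₁) → H²(G, X₂)` is injective. -/
theorem i₂_injective_of_isZero_H1 (h1 : IsZero (groupCohomology X.X₃ 1)) :
    Function.Injective (i₂ X).hom := by
  have h := mapShortComplex₁_exact hX (i := 1) (j := 2) rfl
  rw [ShortComplex.moduleCat_exact_iff_ker_sub_range] at h
  rw [injective_iff_map_eq_zero]
  intro e he
  obtain ⟨y, hy⟩ := h (LinearMap.mem_ker.2 he)
  have hy0 : y = 0 := @Subsingleton.elim _ (ModuleCat.subsingleton_of_isZero h1) _ _
  rw [← hy, hy0]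
  exact map_zero _

end Fermat.Agent.S55.CycLayer9
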