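import Fermat.Agent.S55.CycLayer9.Main

/-!
# S55 / 35-CYC (helper9): `cyclic_layer` with `[Group G] [IsCyclic G] [Finite G]` binders

The statements of `CycLayer9.Main` inherit from Mathlib's `Rep.FiniteCyclicGroup` the binders
`[CommGroup G] [Fintype G] (g : G) (hg : ∀ x, x ∈ Subgroup.zpowers g)`.  Consumers usually have a
quotient group `Γ ⧸ Z` with its canonical `Group` instance and know that it is finite cyclic.
These wrappers take exactly that.
-/

set_option autoImplicit false
set_option linter.style.haveILetI false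

namespace Fermat.Agent.S55.CycLayer9

open groupCohomology CategoryTheory Limits

universe u

variable {k G : Type u} [CommRing k] [Group G] [IsCyclic G] [Finite G]

/-- Periodicity, `[IsCyclic G]` form: `H¹(G, A) = 0` implies `H³(G, A) = 0`. -/
theorem isZero_H3_of_isZero_H1_of_isCyclic (A : Rep.{u, u, u} k G)
    (h1 : IsZero (groupCohomology A 1)) : IsZero (groupCohomology A 3) := by
  classical
  obtain ⟨g, hg⟩ := IsCyclic.exists_generator (α := G)
  letI : CommGroup G := IsCyclic.commGroup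
  letI : Fintype G := Fintype.ofFinite G
  exact isZero_H3_of_isZero_H1 A g hg h1

/-- Periodicity, `[IsCyclic G]` form, all odd degrees. -/
theorem isZero_odd_of_isZero_H1_of_isCyclic (A : Rep.{u, u, u} k G)
    (h1 : IsZero (groupCohomology A 1)) (i : ℕ) (hi : Odd i) : IsZero (groupCohomology A i) := by
  classical
  obtain ⟨g, hg⟩ := IsCyclic.exists_generator (α := G)
  letI : CommGroup G := IsCyclic.commGroup
  letI : Fintype G := Fintype.ofFinite G
  exact isZero_odd_of_isZero_H1 A g hg h1 i hi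

/-- Periodicity, `[IsCyclic G]` form, all positive even degrees. -/
theorem isZero_even_of_isZero_H2_of_isCyclic (A : Rep.{u, u, u} k G)
    (h2 : IsZero (groupCohomology A 2)) (i : ℕ) [NeZero i] (hi : Even i) :
    IsZero (groupCohomology A i) := by
  classical
  obtain ⟨g, hg⟩ := IsCyclic.exists_generator (α := G)
  letI : CommGroup G := IsCyclic.commGroup
  letI : Fintype G := Fintype.ofFinite G
  exact isZero_even_of_isZero_H2 A g hg h2 i hi

/-- **The cyclic layer (35-CYC), abstract form, `[IsCyclic G]` binders.** -/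
theorem cyclic_layer_of_isCyclic {X : ShortComplex (Rep.{u, u, u} k G)} (hX : X.ShortExact)
    (hH90 : IsZero (groupCohomology X.X₁ 1))
    {T : Type*} [AddCommGroup T] (invJ : H2 X.X₂ →+ T)
    (hrec : ∀ e : H2 X.X₁, invJ ((i₂ X).hom e) = 0)
    {n : ℕ} [Finite (H2 X.X₃)] (hcard : Nat.card (H2 X.X₃) ∣ n)
    (c₀ : H2 X.X₂) (hc₀ : addOrderOf (invJ c₀) = n) :
    ∃ invC : H2 X.X₃ →+ T,
      (∀ c, invC ((π₂ X).hom c) = invJ c) ∧ Function.Injective invC ∧
      Nat.card (H2 X.X₃) = n ∧
      (∀ x : H2 X.X₃, ∃ j : ℤ, x = j • (π₂ X).hom c₀) ∧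
      invC.range = AddSubgroup.zmultiples (invJ c₀) ∧
      (∀ c : H2 X.X₂, invJ c = 0 ↔ ∃ e, (i₂ X).hom e = c) := by
  have h3 : IsZero (groupCohomology X.X₁ 3) := isZero_H3_of_isZero_H1_of_isCyclic X.X₁ hH90
  have hsurj : Function.Surjective (π₂ X).hom := π₂_surjective_of_isZero_H3 hX h3
  obtain ⟨invC, hinvC, -⟩ := GlobalInv91.exists_descInv
    (i₂ X).hom.toAddMonoidHom (π₂ X).hom.toAddMonoidHom invJ
    (fun c hc => exists_i₂_eq_of_π₂_eq_zero hX c hc) hsurj hrec
  obtain ⟨hinj, hcardn, -, hgen, hrange⟩ :=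
    descent_core (π₂ X).hom.toAddMonoidHom invJ invC hinvC hcard c₀ hc₀
  refine ⟨invC, hinvC, hinj, hcardn, hgen, hrange, ?_⟩
  intro c
  constructor
  · intro hc
    have : (π₂ X).hom c = 0 := by
      apply hinj
      rw [map_zero]
      exact (hinvC c).trans hc
    exact exists_i₂_eq_of_π₂_eq_zero hX c this
  · rintro ⟨e, rfl⟩
    exact hrec e

/-- `π₂` is onto for a finite cyclic group as soon as `H¹(G, X₁) = 0`. -/
theorem π₂_surjective_of_isCyclic {X : ShortComplex (Rep.{u, u, u} k G)} (hX : X.ShortExact)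
    (hH90 : IsZero (groupCohomology X.X₁ 1)) : Function.Surjective (π₂ X).hom :=
  π₂_surjective_of_isZero_H3 hX (isZero_H3_of_isZero_H1_of_isCyclic X.X₁ hH90)

end Fermat.Agent.S55.CycLayer9
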