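import Fermat.Agent.S55.CycLayer9.Crossing

/-!
# S55 / 35-GEN (helper9): splitting on a layer from splitting at the top

`G` a group, `J : Rep k G`, `V ⊴ G`, `Z ≤ G ⧸ V` with preimage `Z̃ = Z.comap (mk' V) ≤ G`.
If `H¹(V, J) = 0`, a class `y ∈ H²(G ⧸ V, J^V)` whose inflation to `G` dies on `Z̃` already dies
on `Z`:  `res^{G}_{Z̃} (infl y) = 0 → res^{G/V}_{Z} y = 0`.

This is the transport needed to discharge the hypothesis `hsplit` of
`GlobalInv91.reciprocity_trans` / `hasse_trans` (stated on the layer `(G ⧸ V, J^V, Z)`) from a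
splitting statement at the top level `(G, J, Z̃)` (e.g. `Shapiro9.JSplit`'s (J3)).
-/

set_option autoImplicit false

namespace Fermat.Agent.S55.CycLayer9

open groupCohomology CategoryTheory Limits Rep
open Fermat.Agent.S55.GlobalInv91 (infl₂ res₂)

universe u

variable {k G : Type u} [CommRing k] [Group G] (J : Rep.{u, u, u} k G)
  (V : Subgroup G) [V.Normal] (Z : Subgroup (G ⧸ V))

/-- `V` lies in the preimage of any subgroup of `G ⧸ V` -/
theorem le_comap_mk' : V ≤ Z.comap (QuotientGroup.mk' V) := by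
  intro s hs
  rw [Subgroup.mem_comap, QuotientGroup.mk'_apply, (QuotientGroup.eq_one_iff s).2 hs]
  exact Z.one_mem

/-- **Splitting on the layer from splitting at the top**, with `H¹(V, J) = 0` in elementary form
(`InfRes9.H1Vanishes`: every 1-cocycle of `V` in `J` is a coboundary). -/
theorem res₂_quot_eq_zero_of_h1Vanishes
    (h1 : InfRes9.H1Vanishes (A := J) V)
    (y : H2 (J.quotientToInvariants V))
    (h : (res₂ J (Z.comap (QuotientGroup.mk' V))).hom ((infl₂ J V).hom y) = 0) :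
    (res₂ (J.quotientToInvariants V) Z).hom y = 0 := by
  classical
  have hVZ : V ≤ Z.comap (QuotientGroup.mk' V) := le_comap_mk' V Z
  induction y using H2_induction_on with | @h x =>
  have hx' : (map (Z.comap (QuotientGroup.mk' V)).subtype
      (𝟙 (res (Z.comap (QuotientGroup.mk' V)).subtype J)) 2)
      ((map (QuotientGroup.mk' V) (ofHom <| J.ρ.quotientToInvariants_lift V) 2) (H2π _ x)) = 0 := h
  rw [H2π_comp_map_apply (QuotientGroup.mk' V),
    H2π_comp_map_apply (Z.comap (QuotientGroup.mk' V)).subtype, H2π_eq_zero_iff] at hx'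
  obtain ⟨b, hb⟩ := hx'
  have hinf : ∀ g h : (Z.comap (QuotientGroup.mk' V)), ((x (QuotientGroup.mk (g : G), QuotientGroup.mk (h : G)) :
      J.quotientToInvariants V) : J) = J.ρ (g : G) (b h) - b (g * h) + b g := by
    intro g h
    have := congrFun hb (g, h)
    rw [d₁₂_hom_apply] at this
    exact this.symm
  set a₀ : J := ((x (1, 1) : J.quotientToInvariants V) : J) with ha₀
  have ha₀inv : ∀ s ∈ V, J.ρ s a₀ = a₀ := fun s hs => (x (1, 1)).2 ⟨s, hs⟩
  have hmk1 : ∀ s ∈ V, (QuotientGroup.mk s : G ⧸ V) = 1 := fun s hs =>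
    (QuotientGroup.eq_one_iff s).2 hs
  have hone_fst : ∀ g : G, ((x (1, QuotientGroup.mk g) : J.quotientToInvariants V) : J) = a₀ :=
    fun g => by rw [cocycles₂_map_one_fst x]
  have hone_snd : ∀ g : G, ((x (QuotientGroup.mk g, 1) : J.quotientToInvariants V) : J) =
      J.ρ g a₀ := fun g => by
    rw [cocycles₂_map_one_snd x]
    rfl
  -- the inclusion of `V` into the preimage of `Z`
  let ι : V → (Z.comap (QuotientGroup.mk' V)) := fun s => ⟨(s : G), hVZ s.2⟩
  have hιmul : ∀ s t : V, ι (s * t) = ι s * ι t := fun _ _ => rfl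
  -- Step 1: `b - a₀` is a 1-cocycle on `V`
  have hcoc : ∀ s t : V, (fun s : V => b (ι s) - a₀) (s * t) =
      J.ρ (s : G) ((fun s : V => b (ι s) - a₀) t) + (fun s : V => b (ι s) - a₀) s := by
    intro s t
    have h2 : ((x (QuotientGroup.mk (s : G), QuotientGroup.mk (t : G)) :
        J.quotientToInvariants V) : J) = J.ρ (s : G) (b (ι t)) - b (ι s * ι t) + b (ι s) :=
      hinf (ι s) (ι t)
    rw [hmk1 s s.2, hmk1 t t.2, ← ha₀] at h2
    show b (ι (s * t)) - a₀ = J.ρ (s : G) (b (ι t) - a₀) + (b (ι s) - a₀)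
    have h3 : b (ι s * ι t) = J.ρ (s : G) (b (ι t)) + b (ι s) - a₀ := by
      rw [h2]; abel
    rw [hιmul, map_sub, ha₀inv s s.2, h3]
    abel
  obtain ⟨yy, hy⟩ := h1 (fun s : V => b (ι s) - a₀) hcoc
  -- Step 2: correct `b` by the coboundary of `yy`
  let b₁ : (Z.comap (QuotientGroup.mk' V)) → J := fun g => b g - (J.ρ (g : G) yy - yy)
  have hinf₁ : ∀ g h : (Z.comap (QuotientGroup.mk' V)),
      ((x (QuotientGroup.mk (g : G), QuotientGroup.mk (h : G)) :
        J.quotientToInvariants V) : J) = J.ρ (g : G) (b₁ h) - b₁ (g * h) + b₁ g := by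
    intro g h
    rw [hinf]
    show _ = J.ρ (g : G) (b h - (J.ρ (h : G) yy - yy)) -
      (b (g * h) - (J.ρ ((g * h : (Z.comap (QuotientGroup.mk' V))) : G) yy - yy)) +
      (b g - (J.ρ (g : G) yy - yy))
    rw [Subgroup.coe_mul, map_mul, map_sub, map_sub, Module.End.mul_apply]
    abel
  have hb₁V : ∀ s : V, b₁ (ι s) = a₀ := fun s => by
    show b (ι s) - (J.ρ (s : G) yy - yy) = a₀
    rw [hy s]
    abel
  -- Step 3: bi-invariance
  have hr : ∀ (g : (Z.comap (QuotientGroup.mk' V))) (s : V), b₁ (g * ι s) = b₁ g := fun g s => by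
    have h2 : ((x (QuotientGroup.mk (g : G), QuotientGroup.mk (s : G)) :
        J.quotientToInvariants V) : J) = J.ρ (g : G) (b₁ (ι s)) - b₁ (g * ι s) + b₁ g :=
      hinf₁ g (ι s)
    rw [hmk1 s s.2, hone_snd, hb₁V s] at h2
    have : b₁ (g * ι s) - b₁ g = 0 := by
      have h3 : J.ρ (g : G) a₀ - (J.ρ (g : G) a₀ - b₁ (g * ι s) + b₁ g) = 0 := by
        rw [← h2, sub_self]
      rw [← h3]; abel
    exact sub_eq_zero.mp this
  have hl : ∀ (g : (Z.comap (QuotientGroup.mk' V))) (s : V),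
      b₁ (ι s * g) = J.ρ (s : G) (b₁ g) := fun g s => by
    have h2 : ((x (QuotientGroup.mk (s : G), QuotientGroup.mk (g : G)) :
        J.quotientToInvariants V) : J) = J.ρ (s : G) (b₁ g) - b₁ (ι s * g) + b₁ (ι s) :=
      hinf₁ (ι s) g
    rw [hmk1 s s.2, hone_fst, hb₁V s] at h2
    have : b₁ (ι s * g) - J.ρ (s : G) (b₁ g) = 0 := by
      have h3 : a₀ - (J.ρ (s : G) (b₁ g) - b₁ (ι s * g) + a₀) = 0 := by rw [← h2, sub_self]
      rw [← h3]; abel
    exact sub_eq_zero.mp this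
  have hinv : ∀ (g : (Z.comap (QuotientGroup.mk' V))) (s : V), J.ρ (s : G) (b₁ g) = b₁ g :=
    fun g s => by
    have hconj : (g : G)⁻¹ * s * g ∈ V := Subgroup.Normal.conj_mem' (inferInstance : V.Normal) (s : G) s.2 (g : G)
    have h2 : ι s * g = g * ι ⟨(g : G)⁻¹ * s * g, hconj⟩ := by
      apply Subtype.ext
      show (s : G) * g = g * ((g : G)⁻¹ * s * g)
      group
    rw [← hl g s, h2, hr g _]
  -- Step 4: descend to `Z`
  have hlift : ∀ s : Z, Quotient.out (s : G ⧸ V) ∈ Z.comap (QuotientGroup.mk' V) := fun s => by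
    rw [Subgroup.mem_comap, QuotientGroup.mk'_apply]
    have : (QuotientGroup.mk (Quotient.out (s : G ⧸ V)) : G ⧸ V) = s := QuotientGroup.out_eq' _
    rw [this]
    exact s.2
  let β : Z → J.quotientToInvariants V := fun s =>
    ⟨b₁ ⟨Quotient.out (s : G ⧸ V), hlift s⟩, fun v => hinv _ v⟩
  have hβ : ∀ (s : G ⧸ V) (hs : s ∈ Z) (g : (Z.comap (QuotientGroup.mk' V))),
      (QuotientGroup.mk (g : G) : G ⧸ V) = s →
      ((β ⟨s, hs⟩ : J.quotientToInvariants V) : J) = b₁ g := by
    intro s hs g hg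
    obtain ⟨t, ht, hgt⟩ := InfRes9.out_mk_eq (S := V) (g : G)
    rw [hg] at hgt
    have e : (⟨Quotient.out s, hlift ⟨s, hs⟩⟩ : (Z.comap (QuotientGroup.mk' V))) =
        g * ι ⟨t, ht⟩ := Subtype.ext hgt
    show b₁ _ = _
    rw [e, hr]
  have key : ∀ (s t : G ⧸ V) (hs : s ∈ Z) (ht : t ∈ Z),
      ((((res Z.subtype (J.quotientToInvariants V)).ρ ⟨s, hs⟩ (β ⟨t, ht⟩) -
        β (⟨s, hs⟩ * ⟨t, ht⟩) + β ⟨s, hs⟩ : J.quotientToInvariants V)) : J) =
      ((x (s, t) : J.quotientToInvariants V) : J) := by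
    intro s t hs ht
    have hgs : (QuotientGroup.mk (Quotient.out s) : G ⧸ V) = s := QuotientGroup.out_eq' _
    have hgt : (QuotientGroup.mk (Quotient.out t) : G ⧸ V) = t := QuotientGroup.out_eq' _
    set gs : (Z.comap (QuotientGroup.mk' V)) := ⟨Quotient.out s, hlift ⟨s, hs⟩⟩ with hgsdef
    set gt : (Z.comap (QuotientGroup.mk' V)) := ⟨Quotient.out t, hlift ⟨t, ht⟩⟩ with hgtdef
    have h1s : ((β ⟨s, hs⟩ : J.quotientToInvariants V) : J) = b₁ gs := hβ s hs gs hgs
    have h1t : ((β ⟨t, ht⟩ : J.quotientToInvariants V) : J) = b₁ gt := hβ t ht gt hgt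
    have h1st : ((β (⟨s, hs⟩ * ⟨t, ht⟩) : J.quotientToInvariants V) : J) = b₁ (gs * gt) := by
      apply hβ (s * t) _ (gs * gt)
      show (QuotientGroup.mk ((Quotient.out s : G) * (Quotient.out t : G)) : G ⧸ V) = s * t
      rw [QuotientGroup.mk_mul, hgs, hgt]
    have hact : ((((res Z.subtype (J.quotientToInvariants V)).ρ ⟨s, hs⟩ (β ⟨t, ht⟩) :
        J.quotientToInvariants V)) : J) = J.ρ (gs : G) ((β ⟨t, ht⟩ : J.quotientToInvariants V) : J) := by
      have e : (⟨s, hs⟩ : Z) = ⟨QuotientGroup.mk (gs : G), by rw [hgs]; exact hs⟩ :=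
        Subtype.ext hgs.symm
      rw [e]
      rfl
    have hx : ((x (s, t) : J.quotientToInvariants V) : J) =
        J.ρ (gs : G) (b₁ gt) - b₁ (gs * gt) + b₁ gs := by
      rw [← hinf₁ gs gt]
      show _ = ((x (QuotientGroup.mk (Quotient.out s), QuotientGroup.mk (Quotient.out t)) :
        J.quotientToInvariants V) : J)
      rw [hgs, hgt]
    rw [hx, ← h1s, ← h1t, ← h1st, ← hact]
    rfl
  have hfin : (map Z.subtype (𝟙 (res Z.subtype (J.quotientToInvariants V))) 2)
      (H2π _ x) = 0 := by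
    rw [H2π_comp_map_apply Z.subtype, H2π_eq_zero_iff]
    refine ⟨β, ?_⟩
    funext p
    obtain ⟨⟨s, hs⟩, ⟨t, ht⟩⟩ := p
    rw [d₁₂_hom_apply]
    apply Subtype.ext
    exact key s t hs ht
  exact hfin

/-- **Splitting on the layer from splitting at the top.** If `H¹(V, J) = 0`, a class of
`H²(G ⧸ V, J^V)` whose inflation to `G` dies on the preimage of `Z ≤ G ⧸ V` dies on `Z`. -/
theorem res₂_quot_eq_zero
    (h1 : IsZero (groupCohomology (res V.subtype J) 1))
    (y : H2 (J.quotientToInvariants V))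
    (h : (res₂ J (Z.comap (QuotientGroup.mk' V))).hom ((infl₂ J V).hom y) = 0) :
    (res₂ (J.quotientToInvariants V) Z).hom y = 0 :=
  res₂_quot_eq_zero_of_h1Vanishes J V Z (InfRes9.h1Vanishes_of_isZero J V h1) y h

/-- the converse (no hypothesis): a class dying on `Z` has inflation dying on the preimage of
`Z`. -/
theorem res₂_infl₂_eq_zero_of_res₂_quot (y : H2 (J.quotientToInvariants V))
    (h : (res₂ (J.quotientToInvariants V) Z).hom y = 0) :
    (res₂ J (Z.comap (QuotientGroup.mk' V))).hom ((infl₂ J V).hom y) = 0 := by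
  induction y using H2_induction_on with | @h x =>
  have hx' : (map Z.subtype (𝟙 (res Z.subtype (J.quotientToInvariants V))) 2)
      (H2π _ x) = 0 := h
  rw [H2π_comp_map_apply Z.subtype, H2π_eq_zero_iff] at hx'
  obtain ⟨β, hβ⟩ := hx'
  have hfin : (map (Z.comap (QuotientGroup.mk' V)).subtype
      (𝟙 (res (Z.comap (QuotientGroup.mk' V)).subtype J)) 2)
      ((map (QuotientGroup.mk' V) (ofHom <| J.ρ.quotientToInvariants_lift V) 2) (H2π _ x)) = 0 := by
    rw [H2π_comp_map_apply (QuotientGroup.mk' V),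
      H2π_comp_map_apply (Z.comap (QuotientGroup.mk' V)).subtype, H2π_eq_zero_iff]
    refine ⟨fun g => ((β ⟨QuotientGroup.mk (g : G), g.2⟩ : J.quotientToInvariants V) : J), ?_⟩
    funext p
    obtain ⟨g, h⟩ := p
    rw [d₁₂_hom_apply]
    have := congrArg (fun z : J.quotientToInvariants V => (z : J))
      (congrFun hβ (⟨QuotientGroup.mk (g : G), g.2⟩, ⟨QuotientGroup.mk (h : G), h.2⟩))
    rw [d₁₂_hom_apply] at this
    exact this
  exact hfin

end Fermat.Agent.S55.CycLayer9
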