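import Fermat.Agent.S55.CycLayer9.Crossing

/-!
# S55 / 35-GEN (helper9): transport of the invariant along a crossing, abstract form

Pure additive-group statements (no model):

* `exists_transport`: two injective maps `f₁ : A₁ → B`, `f₂ : A₂ → B` with
  `range f₁ ≤ range f₂` give a unique `t : A₁ → A₂` with `f₂ ∘ t = f₁`.
* `transport_inv_comp`: the diagram chase behind `inv_{L/K} ∘ π_* = Σ_v inv_v`:
  layer `1` = `L/K` (arbitrary), layer `2` = the crossing cyclic layer `L'/K`, both inflated to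
  the big level `Γ = Gal(L·L'/K)`.
* `transport_unique_of_compat`: independence of the crossing layer.
-/

set_option autoImplicit false

namespace Fermat.Agent.S55.CycLayer9

section Transport

variable {A₁ A₂ B T : Type*} [AddCommGroup A₁] [AddCommGroup A₂] [AddCommGroup B]
  [AddCommGroup T]

/-- `f₂` injective and `range f₁ ≤ range f₂`: `f₁` factors uniquely through `f₂`. -/
theorem exists_transport (f₁ : A₁ →+ B) (f₂ : A₂ →+ B) (h₂ : Function.Injective f₂)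
    (hle : ∀ x : A₁, ∃ y : A₂, f₂ y = f₁ x) :
    ∃! t : A₁ →+ A₂, ∀ x, f₂ (t x) = f₁ x := by
  classical
  choose s hs using hle
  refine ⟨{ toFun := s, map_zero' := ?_, map_add' := ?_ }, hs, ?_⟩
  · apply h₂
    rw [hs, map_zero, map_zero]
  · intro x y
    apply h₂
    rw [hs, map_add, map_add, hs, hs]
  · intro t ht
    ext x
    apply h₂
    rw [ht]
    exact (hs x).symm

/-- If moreover `f₁` is injective, so is the transport; if `range f₂ ≤ range f₁` it is onto. -/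
theorem transport_injective (f₁ : A₁ →+ B) (f₂ : A₂ →+ B) (t : A₁ →+ A₂)
    (ht : ∀ x, f₂ (t x) = f₁ x) (h₁ : Function.Injective f₁) : Function.Injective t := by
  intro x y hxy
  apply h₁
  rw [← ht, ← ht, hxy]

theorem transport_surjective (f₁ : A₁ →+ B) (f₂ : A₂ →+ B) (t : A₁ →+ A₂)
    (ht : ∀ x, f₂ (t x) = f₁ x) (h₂ : Function.Injective f₂)
    (hge : ∀ y : A₂, ∃ x : A₁, f₁ x = f₂ y) : Function.Surjective t := by
  intro y
  obtain ⟨x, hx⟩ := hge y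
  exact ⟨x, h₂ (by rw [ht, hx])⟩

end Transport

section Chase

variable {HE HJ HC HJ₁ HC₁ HJ₂ HC₂ T : Type*} [AddCommGroup HE] [AddCommGroup HJ]
  [AddCommGroup HC] [AddCommGroup HJ₁] [AddCommGroup HC₁] [AddCommGroup HJ₂] [AddCommGroup HC₂]
  [AddCommGroup T]

/-- **`inv_{L/K} ∘ π_* = Σ_v inv_v`.**  Big level: `i : H²(Γ,E) → H²(Γ,J)`, `π : H²(Γ,J) → H²(Γ,C)`
exact in the middle, `invJ` = sum of local invariants at the big level, killing `range i`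
(reciprocity).  Layer `a ∈ {1, 2}`: `πₐ : H²(layer, J) → H²(layer, C)`, inflations `inflJₐ`,
`inflCₐ` commuting with the `π`'s, `invJₐ = invJ ∘ inflJₐ` (local invariants are compatible with
inflation).  Layer `2` is the cyclic crossing layer: `π₂` is onto and `invC₂ ∘ π₂ = invJ₂`
(`cyclic_layer`).  `t : H²(layer 1, C) → H²(layer 2, C)` is the transport (`inflC₂ ∘ t = inflC₁`).
Then `inv₁ := invC₂ ∘ t` satisfies `inv₁ ∘ π₁ = invJ₁`. -/
theorem transport_inv_comp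
    (i : HE →+ HJ) (π : HJ →+ HC) (hex : ∀ c : HJ, π c = 0 → ∃ e, i e = c)
    (invJ : HJ →+ T) (hrec : ∀ e : HE, invJ (i e) = 0)
    (π₁ : HJ₁ →+ HC₁) (inflJ₁ : HJ₁ →+ HJ) (inflC₁ : HC₁ →+ HC)
    (hsq₁ : ∀ y, π (inflJ₁ y) = inflC₁ (π₁ y))
    (π₂ : HJ₂ →+ HC₂) (inflJ₂ : HJ₂ →+ HJ) (inflC₂ : HC₂ →+ HC)
    (hsq₂ : ∀ y, π (inflJ₂ y) = inflC₂ (π₂ y))
    (hπ₂ : Function.Surjective π₂)
    (invC₂ : HC₂ →+ T) (hinvC₂ : ∀ y, invC₂ (π₂ y) = invJ (inflJ₂ y))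
    (t : HC₁ →+ HC₂) (ht : ∀ x, inflC₂ (t x) = inflC₁ x) (y : HJ₁) :
    invC₂ (t (π₁ y)) = invJ (inflJ₁ y) := by
  obtain ⟨y', hy'⟩ := hπ₂ (t (π₁ y))
  have h0 : π (inflJ₁ y - inflJ₂ y') = 0 := by
    rw [map_sub, hsq₁, hsq₂, hy', ht, sub_self]
  obtain ⟨e, he⟩ := hex _ h0
  have h1 : invJ (inflJ₁ y - inflJ₂ y') = 0 := by rw [← he, hrec]
  rw [map_sub, sub_eq_zero] at h1
  rw [← hy', hinvC₂, h1]

/-- **Independence of the crossing layer.**  Two crossing layers `2`, `3` with `3` above `2`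
(`infl₂₃ : H²(layer 2, C) → H²(layer 3, C)`, compatible with the inflations to the big level and
with the invariants) give the same transported invariant on layer `1`. -/
theorem transport_inv_eq_of_le {HC₃ : Type*} [AddCommGroup HC₃]
    (inflC₁ : HC₁ →+ HC) (inflC₂ : HC₂ →+ HC) (inflC₃ : HC₃ →+ HC)
    (infl₂₃ : HC₂ →+ HC₃) (h₂₃ : ∀ x, inflC₃ (infl₂₃ x) = inflC₂ x)
    (h₃ : Function.Injective inflC₃)
    (invC₂ : HC₂ →+ T) (invC₃ : HC₃ →+ T) (hinv : ∀ x, invC₃ (infl₂₃ x) = invC₂ x)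
    (t₂ : HC₁ →+ HC₂) (ht₂ : ∀ x, inflC₂ (t₂ x) = inflC₁ x)
    (t₃ : HC₁ →+ HC₃) (ht₃ : ∀ x, inflC₃ (t₃ x) = inflC₁ x) (x : HC₁) :
    invC₂ (t₂ x) = invC₃ (t₃ x) := by
  have : infl₂₃ (t₂ x) = t₃ x := by
    apply h₃
    rw [h₂₃, ht₂, ht₃]
  rw [← hinv, this]

/-- Compatibility of the cyclic-layer invariants along a tower `2 ≤ 3` of crossing layers:
it follows from the compatibility of the sums of local invariants and the surjectivity of `π₂`. -/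
theorem invC_compat_of_tower {HJ₃ HC₃ : Type*} [AddCommGroup HJ₃] [AddCommGroup HC₃]
    (π₂ : HJ₂ →+ HC₂) (π₃ : HJ₃ →+ HC₃) (inflJ₂₃ : HJ₂ →+ HJ₃) (inflC₂₃ : HC₂ →+ HC₃)
    (hsq : ∀ y, π₃ (inflJ₂₃ y) = inflC₂₃ (π₂ y)) (hπ₂ : Function.Surjective π₂)
    (invJ₂ : HJ₂ →+ T) (invJ₃ : HJ₃ →+ T) (hJ : ∀ y, invJ₃ (inflJ₂₃ y) = invJ₂ y)
    (invC₂ : HC₂ →+ T) (invC₃ : HC₃ →+ T)
    (h₂ : ∀ y, invC₂ (π₂ y) = invJ₂ y) (h₃ : ∀ y, invC₃ (π₃ y) = invJ₃ y) (x : HC₂) :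
    invC₃ (inflC₂₃ x) = invC₂ x := by
  obtain ⟨y, rfl⟩ := hπ₂ x
  rw [← hsq, h₃, hJ, h₂]

end Chase

end Fermat.Agent.S55.CycLayer9
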